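/-
GATE-J27 (S27) / node A1 = GJ27-DESC (helper56), file 4.

**Every invariant divisor class contains an invariant divisor** (multiplicative Hilbert 90 for the
Frobenius).  Frame of `Desc/LSpace.lean` (`Φ : FrobData p k Ft`, `k` algebraically closed).

If `g • D₀ - D₀ = div u`, the twisted Frobenius `v ↦ u * g • v` on `Ft` is `q`-semilinear and
locally periodic (`g ^ m` fixes `D₀` and `u` ⟹ `N_m u = ∏_{i<m} g^i u` has trivial divisor, is a
constant of `F_q^×`, so `N_{m (q-1)} u = 1`); by `span_fixed_eq_top` it has a nonzero fixed vector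
`h`: `u * g • h = h`, and `D₀ + div h` is invariant.

* `twist g u`, `cocyc g u n` (`= ∏_{i<n} g^i u`), `twist_iterate`;
* `exists_twist_fixed`    : `∃ h ≠ 0, u * g • h = h`;
* **`exists_invariant_of_smul_sub_principal`** : `g • D₀ - D₀` principal `⟹ ∃ D` invariant with
  `D - D₀` principal;
* **`exists_invariant_rep`** : `x : Pic0 k Ft`, `g • x = x ⟹ ∃ D : degZero`, `g • D = D`, `mk D = x`;
* `exists_invariant_rep_pow` : the same for `g ^ n`.
-/
import Mathlib
import Fermat.Agent.GJ27.Desc.LSpace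

set_option autoImplicit false

noncomputable section

open AlgebraicCurve

namespace Fermat.Agent.GJ27.Desc

open Fermat.Agent.RRh45 Fermat.Agent.S24 Fermat.Agent.GJ27.Frob Fermat.Agent.GR.W.RedFinAbs

variable {p : ℕ} {k Ft : Type*} [Field k] [Field Ft] [Algebra k Ft]

/-! ### the cocycle `n ↦ ∏_{i<n} g^i u` and the twisted Frobenius -/

section Cocycle

variable (g : SemilinearAut k Ft) (u : Ft)

/-- `∏_{i<n} g^i u`, defined by `N_{n+1} = u * g • N_n` -/
def cocyc : ℕ → Ft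
  | 0 => 1
  | (n + 1) => u * g • cocyc n

@[simp] theorem cocyc_zero : cocyc g u 0 = 1 := rfl

theorem cocyc_succ (n : ℕ) : cocyc g u (n + 1) = u * g • cocyc g u n := rfl

theorem cocyc_one : cocyc g u 1 = u := by
  rw [cocyc_succ, cocyc_zero, smul_one, mul_one]

/-- the twisted Frobenius `v ↦ u * g • v` -/
def twist : Ft →+ Ft where
  toFun v := u * g • v
  map_zero' := by rw [smul_zero, mul_zero]
  map_add' x y := by rw [smul_add, mul_add]

@[simp] theorem twist_apply (v : Ft) : twist g u v = u * g • v := rfl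

theorem twist_iterate (n : ℕ) (v : Ft) : (twist g u)^[n] v = cocyc g u n * (g ^ n) • v := by
  induction n with
  | zero => simp
  | succ n ih =>
    rw [Function.iterate_succ_apply', ih, twist_apply, cocyc_succ, smul_mul', pow_succ', mul_smul,
      mul_assoc]

theorem cocyc_add (n m : ℕ) : cocyc g u (n + m) = cocyc g u n * (g ^ n) • cocyc g u m := by
  induction n with
  | zero => simp
  | succ n ih =>
    rw [Nat.succ_add, cocyc_succ, ih, cocyc_succ, smul_mul', pow_succ', mul_smul, mul_assoc]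

theorem cocyc_ne_zero (hu : u ≠ 0) (n : ℕ) : cocyc g u n ≠ 0 := by
  induction n with
  | zero => exact one_ne_zero
  | succ n ih => exact mul_ne_zero hu ((smul_ne_zero_iff_ne g).mpr ih)

/-- `g • N_m = N_m` when `g ^ m` fixes `u` -/
theorem smul_cocyc_of_fixed (hu : u ≠ 0) {m : ℕ} (hm : (g ^ m) • u = u) :
    g • cocyc g u m = cocyc g u m := by
  have h1 : cocyc g u (m + 1) = u * g • cocyc g u m := cocyc_succ g u m
  have h2 : cocyc g u (m + 1) = cocyc g u m * u := by
    rw [cocyc_add, cocyc_one, hm]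
  rw [h2, mul_comm] at h1
  exact (mul_left_cancel₀ hu h1).symm

/-- `N_{m t} = N_m ^ t` when `g ^ m` fixes `u` -/
theorem cocyc_mul_of_fixed (hu : u ≠ 0) {m : ℕ} (hm : (g ^ m) • u = u) (t : ℕ) :
    cocyc g u (m * t) = cocyc g u m ^ t := by
  have hfix := smul_cocyc_of_fixed g u hu hm
  induction t with
  | zero => simp
  | succ t ih =>
    rw [Nat.mul_succ, cocyc_add, ih, pow_smul_eq_of_smul_eq hfix, pow_succ]

end Cocycle

/-! ### the twisted Frobenius has a nonzero fixed vector -/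

section H90

variable [Fact p.Prime] [CharP k p] [IsAlgClosed k] [FiniteResidues k Ft]
  [HasPrincipalDivisors k Ft] [Nonempty (Place k Ft)]

variable (Φ : FrobData p k Ft)

omit [Fact p.Prime] [CharP k p] [IsAlgClosed k] [FiniteResidues k Ft] [HasPrincipalDivisors k Ft]
  [Nonempty (Place k Ft)] in
theorem twist_semilinear (u : Ft) : IsFrobSemilinear k p Φ.f (twist Φ.g u) := by
  intro a v
  rw [twist_apply, twist_apply, Algebra.smul_def, smul_mul', SemilinearAut.smul_algebraMap, Φ.base,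
    Algebra.smul_def]
  ring

omit [Fact p.Prime] [CharP k p] [IsAlgClosed k] [FiniteResidues k Ft] [Nonempty (Place k Ft)] in
/-- `div N_n = g^n • D₀ - D₀` -/
theorem dv_cocyc {D₀ : Divisor k Ft} {u : Ft} (hu : u ≠ 0)
    (hD : Φ.g • D₀ - D₀ = dv k u) (n : ℕ) :
    dv k (cocyc Φ.g u n) = (Φ.g ^ n) • D₀ - D₀ := by
  induction n with
  | zero =>
    rw [cocyc_zero, pow_zero, one_smul, sub_self]
    ext v
    rw [dv_apply one_ne_zero, Place.ord_one]
    rfl
  | succ n ih =>
    have h0 := cocyc_ne_zero Φ.g u hu n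
    rw [cocyc_succ, dv_mul hu ((smul_ne_zero_iff_ne Φ.g).mpr h0), ← smul_dv Φ.g h0, ih, ← hD,
      smul_sub, pow_succ', mul_smul]
    abel

/-- **multiplicative Hilbert 90 for the Frobenius**, cocycle form -/
theorem exists_twist_fixed {D₀ : Divisor k Ft} {u : Ft} (hu : u ≠ 0)
    (hD : Φ.g • D₀ - D₀ = dv k u) : ∃ h : Ft, h ≠ 0 ∧ u * Φ.g • h = h := by
  have hdeg : ∀ Q : Place k Ft, Q.deg = 1 := fun Q => deg_eq_one Q
  have hf : Φ.f ≠ 0 := Nat.pos_iff_ne_zero.mp Φ.hf
  -- a common period of `D₀` and `u`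
  obtain ⟨n₁, hn₁, h₁⟩ := Φ.exists_pow_smul_divisor_eq D₀
  obtain ⟨n₂, hn₂, h₂⟩ := Φ.fix u
  set m := n₁ * n₂ with hm
  have hm0 : 0 < m := Nat.mul_pos hn₁ hn₂
  have hmD : (Φ.g ^ m) • D₀ = D₀ := Φ.pow_mul_smul_eq h₁ n₂
  have hmu : (Φ.g ^ m) • u = u := Φ.pow_mul_smul_eq' h₂ n₁
  -- `N_m u` is a constant of `F_q`
  have hNm0 := cocyc_ne_zero Φ.g u hu m
  have hdv : dv k (cocyc Φ.g u m) = 0 := by rw [dv_cocyc Φ hu hD, hmD, sub_self]
  obtain ⟨a, ha0, ha⟩ := exists_const_of_ord_eq_zero hdeg hNm0 (fun v => by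
    rw [← dv_apply hNm0, hdv]; rfl)
  have haq : a ^ (p ^ Φ.f) = a := by
    have h := smul_cocyc_of_fixed Φ.g u hu hmu
    rw [ha, SemilinearAut.smul_algebraMap, Φ.base] at h
    exact (algebraMap k Ft).injective h
  have hq : 0 < p ^ Φ.f - 1 := by
    have : 1 < p ^ Φ.f := Nat.one_lt_pow hf (Fact.out : p.Prime).one_lt
    omega
  have haq1 : a ^ (p ^ Φ.f - 1) = 1 := by
    have h1 : a ^ (p ^ Φ.f - 1) * a = 1 * a := by
      rw [← pow_succ, Nat.sub_add_cancel (by omega), haq, one_mul]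
    exact mul_right_cancel₀ ha0 h1
  -- the period `M = m (q - 1)`
  set M := m * (p ^ Φ.f - 1) with hM
  have hM0 : 0 < M := Nat.mul_pos hm0 hq
  have hMu : (Φ.g ^ M) • u = u := Φ.pow_mul_smul_eq hmu _
  have hNM : cocyc Φ.g u M = 1 := by
    rw [hM, cocyc_mul_of_fixed Φ.g u hu hmu, ha, ← map_pow, haq1, map_one]
  -- local periodicity
  have hper : ∀ v : Ft, ∃ n, 0 < n ∧ (twist Φ.g u)^[n] v = v := by
    intro v
    obtain ⟨n₃, hn₃, h₃⟩ := Φ.fix v
    refine ⟨M * n₃, Nat.mul_pos hM0 hn₃, ?_⟩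
    rw [twist_iterate, cocyc_mul_of_fixed Φ.g u hu hMu, hNM, one_pow, one_mul]
    exact Φ.pow_mul_smul_eq' h₃ M
  have hspan := span_fixed_eq_top hf (twist_semilinear Φ u) hper
  by_contra hne
  have hsub : {v : Ft | twist Φ.g u v = v} ⊆ {0} := by
    intro v hv
    by_contra hv0
    exact hne ⟨v, hv0, hv⟩
  have hbot : Submodule.span k {v : Ft | twist Φ.g u v = v} = ⊥ := by
    rw [eq_bot_iff]
    exact (Submodule.span_mono hsub).trans (by rw [Submodule.span_singleton_eq_bot.mpr rfl])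
  rw [hbot] at hspan
  have h1 : (1 : Ft) ∈ (⊥ : Submodule k Ft) := by rw [hspan]; exact Submodule.mem_top
  exact one_ne_zero ((Submodule.mem_bot k).mp h1)

/-- **an invariant divisor class contains an invariant divisor** (any degree) -/
theorem exists_invariant_of_smul_sub_principal (D₀ : Divisor k Ft)
    (h : Φ.g • D₀ - D₀ ∈ Divisor.principal (K := k) (F := Ft)) :
    ∃ D : Divisor k Ft, Φ.g • D = D ∧ D - D₀ ∈ Divisor.principal (K := k) (F := Ft) := by
  obtain ⟨u, hu, hDu⟩ := h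
  have hD : Φ.g • D₀ - D₀ = dv k u := eq_dv_of_forall hu hDu
  obtain ⟨h, hh0, hh⟩ := exists_twist_fixed Φ hu hD
  refine ⟨D₀ + dv k h, ?_, ?_⟩
  · have hgh : Φ.g • h ≠ 0 := (smul_ne_zero_iff_ne Φ.g).mpr hh0
    have h1 : Φ.g • D₀ = D₀ + dv k u := by rw [← hD]; abel
    rw [smul_add, smul_dv Φ.g hh0, h1, add_assoc, ← dv_mul hu hgh, hh]
  · rw [add_sub_cancel_left]
    exact dv_mem_principal hh0

/-- **every invariant class of `Pic⁰` is the class of an invariant divisor** -/
theorem exists_invariant_rep (x : Pic0 k Ft) (hx : Φ.g • x = x) :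
    ∃ D : Divisor.degZero (K := k) (F := Ft),
      Φ.g • (D : Divisor k Ft) = (D : Divisor k Ft) ∧ Pic0.mk D = x := by
  obtain ⟨D₀, rfl⟩ := Pic0.mk_surjective x
  rw [SemilinearAut.pic0_smul_mk] at hx
  have h1 : Φ.g • (D₀ : Divisor k Ft) - (D₀ : Divisor k Ft) ∈
      Divisor.principal (K := k) (F := Ft) := by
    have h2 := (QuotientAddGroup.eq (s := (Divisor.principal (K := k) (F := Ft)).addSubgroupOf
      (Divisor.degZero (K := k) (F := Ft)))).mp hx.symm
    rw [AddSubgroup.mem_addSubgroupOf] at h2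
    have h3 : ((-D₀ + SemilinearAut.degZeroSMulHom Φ.g D₀ : Divisor.degZero (K := k) (F := Ft)) :
        Divisor k Ft) = Φ.g • (D₀ : Divisor k Ft) - (D₀ : Divisor k Ft) := by
      rw [AddSubgroup.coe_add, AddSubgroup.coe_neg, SemilinearAut.coe_degZeroSMulHom]
      abel
    rwa [h3] at h2
  obtain ⟨D, hDfix, hDD₀⟩ := exists_invariant_of_smul_sub_principal Φ (D₀ : Divisor k Ft) h1
  have hdeg0 : D ∈ Divisor.degZero (K := k) (F := Ft) := by
    obtain ⟨y, hy0, hy⟩ := hDD₀
    have h4 : D = (D₀ : Divisor k Ft) + dv k y := by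
      rw [← eq_dv_of_forall hy0 hy]; abel
    rw [Divisor.mem_degZero, h4, map_add, degree_dv, add_zero]
    exact D₀.2
  refine ⟨⟨D, hdeg0⟩, hDfix, ?_⟩
  apply (QuotientAddGroup.eq (s := (Divisor.principal (K := k) (F := Ft)).addSubgroupOf
      (Divisor.degZero (K := k) (F := Ft)))).mpr
  rw [AddSubgroup.mem_addSubgroupOf]
  have h5 : ((-(⟨D, hdeg0⟩ : Divisor.degZero (K := k) (F := Ft)) + D₀ :
      Divisor.degZero (K := k) (F := Ft)) : Divisor k Ft) = -(D - (D₀ : Divisor k Ft)) := by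
    rw [AddSubgroup.coe_add, AddSubgroup.coe_neg]
    abel
  rw [h5]
  exact neg_mem hDD₀

/-- the same for the powers of the Frobenius -/
theorem exists_invariant_rep_pow (n : ℕ) (hn : 0 < n) (x : Pic0 k Ft) (hx : (Φ.g ^ n) • x = x) :
    ∃ D : Divisor.degZero (K := k) (F := Ft),
      (Φ.g ^ n) • (D : Divisor k Ft) = (D : Divisor k Ft) ∧ Pic0.mk D = x :=
  exists_invariant_rep (Φ.pow n hn) x hx

end H90

end Fermat.Agent.GJ27.Desc
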