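/-
GATE-J27 (S27) / node A1 = GJ27-DESC (helper56), file 1 (Mathlib only).

**Frobenius-semilinear descent.**  `k` an algebraically closed field of characteristic `p`,
`q = p ^ f` (`f ≠ 0`), `V` a `k`-vector space, `φ : V →+ V` additive and `q`-semilinear
(`φ (a • v) = a ^ q • φ v`), locally periodic (`∀ v, ∃ n > 0, φ^[n] v = v`).  Then the fixed points
`V^φ` are an `F_q`-form of `V`:

* `Fq k p f`, `mem_Fq`, `card_Fq` : the fixed field of `a ↦ a ^ (p ^ f)` has `p ^ f` elements;
* `repr_mem_Fq_of_fixed` : coordinates of a fixed vector in a basis of fixed vectors lie in `F_q`;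
* `span_fixed_eq_top` : `V^φ` spans `V` over `k` (trace trick `w_a = ∑_{i<n} a^{q^i} • φ^i v` +
  Dedekind independence of the characters `a ↦ a ^ (q ^ i)` on `F_{q^n}`);
* `card_fixed` : `Nat.card {v // φ v = v} = q ^ finrank k V` (`V` finite dimensional);
* `card_range_mul` : for a map `π` on the nonzero fixed vectors whose fibres are the `kˣ`-lines,
  `Nat.card (range π) * (q - 1) = q ^ finrank k V - 1`.
-/
import Mathlib

set_option autoImplicit false

noncomputable section

namespace Fermat.Agent.GJ27.Desc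

open Polynomial

/-! ### the fixed field of `a ↦ a ^ (p ^ f)` -/

section FixedField

variable (k : Type*) [Field k] (p : ℕ) [Fact p.Prime] [CharP k p]

/-- the fixed field `F_{p^f}` of `a ↦ a ^ (p ^ f)` inside `k` -/
def Fq (f : ℕ) : Subfield k :=
  RingHom.eqLocusField (iterateFrobenius k p f) (RingHom.id k)

variable {k p}

theorem mem_Fq {f : ℕ} {a : k} : a ∈ Fq k p f ↔ a ^ (p ^ f) = a := by
  show iterateFrobenius k p f a = RingHom.id k a ↔ _
  rw [iterateFrobenius_def, RingHom.id_apply]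

theorem pow_pow_eq_of_mem_Fq {f : ℕ} {a : k} (ha : a ∈ Fq k p f) (n : ℕ) :
    a ^ (p ^ (f * n)) = a := by
  induction n with
  | zero => simp
  | succ n ih => rw [Nat.mul_succ, pow_add, pow_mul, ih, mem_Fq.mp ha]

theorem Fq_le_mul (f n : ℕ) : Fq k p f ≤ Fq k p (f * n) := by
  intro a ha
  exact mem_Fq.mpr (pow_pow_eq_of_mem_Fq ha n)

theorem card_Fq [IsAlgClosed k] {f : ℕ} (hf : f ≠ 0) : Nat.card (Fq k p f) = p ^ f := by
  have hp : 1 < p := (Fact.out : p.Prime).one_lt
  have hsep : (X ^ (p ^ f) - X : k[X]).Separable :=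
    galois_poly_separable p (p ^ f) (dvd_pow_self p hf)
  have hsplit : ((X ^ (p ^ f) - X : k[X]).map (algebraMap k k)).Splits := IsAlgClosed.splits _
  have hcard := card_rootSet_eq_natDegree (K := k) hsep hsplit
  rw [FiniteField.X_pow_card_pow_sub_X_natDegree_eq k hf hp] at hcard
  have hne : (X ^ (p ^ f) - X : k[X]) ≠ 0 := FiniteField.X_pow_card_pow_sub_X_ne_zero k hf hp
  have hset : ((X ^ (p ^ f) - X : k[X]).rootSet k) = (Fq k p f : Set k) := by
    ext a
    rw [mem_rootSet_of_ne hne]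
    simp only [map_sub, map_pow, aeval_X, sub_eq_zero, SetLike.mem_coe, mem_Fq]
  rw [← hcard, ← Nat.card_eq_fintype_card]
  exact Nat.card_congr (Equiv.setCongr hset.symm)

instance finite_Fq [IsAlgClosed k] {f : ℕ} [NeZero f] : Finite (Fq k p f) := by
  have h := card_Fq (k := k) (p := p) (f := f) (NeZero.ne f)
  have hpos : 0 < p ^ f := pow_pos (Fact.out : p.Prime).pos f
  exact Nat.finite_of_card_ne_zero (by rw [h]; exact hpos.ne')

end FixedField

/-! ### semilinear maps -/

section Semilinear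

variable (k : Type*) [Field k] (p : ℕ) [Fact p.Prime] [CharP k p] (f : ℕ)
  {V : Type*} [AddCommGroup V] [Module k V]

/-- `φ` is `p ^ f`-semilinear -/
def IsFrobSemilinear (φ : V →+ V) : Prop :=
  ∀ (a : k) (v : V), φ (a • v) = a ^ (p ^ f) • φ v

variable {k p f}

theorem IsFrobSemilinear.iterate {φ : V →+ V} (hφ : IsFrobSemilinear k p f φ) (n : ℕ) (a : k)
    (v : V) : φ^[n] (a • v) = a ^ (p ^ (f * n)) • φ^[n] v := by
  induction n generalizing a v with
  | zero => simp
  | succ n ih =>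
    rw [Function.iterate_succ_apply, Function.iterate_succ_apply, hφ, ih, ← pow_mul, ← pow_add,
      Nat.mul_succ, add_comm]

/-- a `k`-combination of fixed vectors with coefficients in `F_q` is fixed -/
theorem fixed_sum {φ : V →+ V} (hφ : IsFrobSemilinear k p f φ) {ι : Type*} (s : Finset ι)
    (b : ι → V) (hb : ∀ i ∈ s, φ (b i) = b i) (a : ι → k) (ha : ∀ i ∈ s, a i ∈ Fq k p f) :
    φ (∑ i ∈ s, a i • b i) = ∑ i ∈ s, a i • b i := by
  rw [map_sum]
  refine Finset.sum_congr rfl fun i hi => ?_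
  rw [hφ, hb i hi, mem_Fq.mp (ha i hi)]

/-- **the trace trick**: if `φ^[n] v = v` and `a ^ (q ^ n) = a` then
`∑_{i<n} a^{q^i} • φ^i v` is fixed by `φ`. -/
theorem trace_fixed {φ : V →+ V} (hφ : IsFrobSemilinear k p f φ) {n : ℕ} {v : V}
    (hv : φ^[n] v = v) {a : k} (ha : a ∈ Fq k p (f * n)) :
    φ (∑ i ∈ Finset.range n, a ^ (p ^ (f * i)) • φ^[i] v) =
      ∑ i ∈ Finset.range n, a ^ (p ^ (f * i)) • φ^[i] v := by
  rw [map_sum]
  have h1 : ∀ i ∈ Finset.range n, φ (a ^ (p ^ (f * i)) • φ^[i] v) =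
      a ^ (p ^ (f * (i + 1))) • φ^[i + 1] v := by
    intro i _
    rw [hφ, ← pow_mul, ← pow_add, ← Nat.mul_succ, ← Function.iterate_succ_apply' φ i v]
  rw [Finset.sum_congr rfl h1]
  cases n with
  | zero => simp
  | succ n =>
    rw [Finset.sum_range_succ (fun i => a ^ (p ^ (f * (i + 1))) • φ^[i + 1] v),
      Finset.sum_range_succ' (fun i => a ^ (p ^ (f * i)) • φ^[i] v), hv, mem_Fq.mp ha]
    simp

end Semilinear


/-! ### coordinates of fixed vectors -/

section Coord

variable {k : Type*} [Field k] {p : ℕ} [Fact p.Prime] [CharP k p] {f : ℕ}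
  {V : Type*} [AddCommGroup V] [Module k V]

/-- in a basis of fixed vectors, `φ` raises the coordinates to the `q`-th power -/
theorem repr_apply_of_fixed {φ : V →+ V} (hφ : IsFrobSemilinear k p f φ) {ι : Type*} [Fintype ι]
    (b : Module.Basis ι k V) (hb : ∀ i, φ (b i) = b i) (v : V) (i : ι) :
    b.repr (φ v) i = (b.repr v i) ^ (p ^ f) := by
  have h1 : φ v = ∑ j, (b.repr v j) ^ (p ^ f) • b j := by
    conv_lhs => rw [← b.sum_repr v]
    rw [map_sum]
    refine Finset.sum_congr rfl fun j _ => ?_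
    rw [hφ, hb j]
  rw [h1, b.repr_sum_self]

/-- the coordinates of a fixed vector in a basis of fixed vectors lie in `F_q` -/
theorem repr_mem_Fq_of_fixed {φ : V →+ V} (hφ : IsFrobSemilinear k p f φ) {ι : Type*} [Fintype ι]
    (b : Module.Basis ι k V) (hb : ∀ i, φ (b i) = b i) {v : V} (hv : φ v = v) (i : ι) :
    b.repr v i ∈ Fq k p f := by
  rw [mem_Fq, ← repr_apply_of_fixed hφ b hb v i, hv]

end Coord

/-! ### the fixed vectors span -/

section Span

variable {k : Type*} [Field k] {p : ℕ} [Fact p.Prime] [CharP k p] {f : ℕ}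
  {V : Type*} [AddCommGroup V] [Module k V]

/-- the characters `a ↦ a ^ (q ^ i)`, `i < n`, of `F_{q^n}` are pairwise distinct -/
theorem pow_char_injective [IsAlgClosed k] (hf : f ≠ 0) (n : ℕ) :
    Function.Injective (fun i : Fin n =>
      ((powMonoidHom (p ^ (f * (i : ℕ))) : k →* k).comp
        ((Fq k p (f * n)).subtype : Fq k p (f * n) →* k))) := by
  have hp : 1 < p := (Fact.out : p.Prime).one_lt
  have key : ∀ i j : Fin n, (i : ℕ) < j →
      ((powMonoidHom (p ^ (f * (i : ℕ))) : k →* k).comp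
        ((Fq k p (f * n)).subtype : Fq k p (f * n) →* k)) ≠
      ((powMonoidHom (p ^ (f * (j : ℕ))) : k →* k).comp
        ((Fq k p (f * n)).subtype : Fq k p (f * n) →* k)) := by
    intro i j hij heq
    have hn0 : n ≠ 0 := fun h => by subst h; exact i.elim0
    have hfn : f * n ≠ 0 := Nat.mul_ne_zero hf hn0
    have hd : f * ((j : ℕ) - i) ≠ 0 := Nat.mul_ne_zero hf (Nat.sub_ne_zero_of_lt hij)
    -- every element of `F_{q^n}` lies in `F_{q^{j-i}}`
    have hsub : (Fq k p (f * n) : Set k) ⊆ (Fq k p (f * ((j : ℕ) - i)) : Set k) := by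
      intro a ha
      have h1 := DFunLike.congr_fun heq ⟨a, ha⟩
      simp only [MonoidHom.comp_apply, powMonoidHom_apply] at h1
      change a ^ (p ^ (f * (i : ℕ))) = a ^ (p ^ (f * (j : ℕ))) at h1
      have h2 : f * (j : ℕ) = f * ((j : ℕ) - i) + f * i := by
        rw [← Nat.mul_add, Nat.sub_add_cancel hij.le]
      have h1' : a ^ (p ^ (f * (i : ℕ))) = (a ^ (p ^ (f * ((j : ℕ) - i)))) ^ (p ^ (f * (i : ℕ))) := by
        rw [h1, ← pow_mul, ← pow_add, ← h2]
      have h3 := iterateFrobenius_inj k p (f * (i : ℕ))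
      have h4 : iterateFrobenius k p (f * i) a =
          iterateFrobenius k p (f * i) (a ^ (p ^ (f * ((j : ℕ) - i)))) := by
        rw [iterateFrobenius_def, iterateFrobenius_def]; exact h1'
      exact mem_Fq.mpr (h3 h4).symm
    have hfin : (Fq k p (f * ((j : ℕ) - i)) : Set k).Finite := by
      have : NeZero (f * ((j : ℕ) - i)) := ⟨hd⟩
      have hfin' : Finite (Fq k p (f * ((j : ℕ) - i))) := finite_Fq
      exact Set.finite_coe_iff.mp hfin'
    have hle := Nat.card_mono hfin hsub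
    have e1 : Nat.card (Fq k p (f * n) : Set k) = p ^ (f * n) := card_Fq hfn
    have e2 : Nat.card (Fq k p (f * ((j : ℕ) - i)) : Set k) = p ^ (f * ((j : ℕ) - i)) := card_Fq hd
    rw [e1, e2] at hle
    have hlt : f * ((j : ℕ) - i) < f * n :=
      Nat.mul_lt_mul_of_pos_left (lt_of_le_of_lt (Nat.sub_le _ _) j.2) (Nat.pos_of_ne_zero hf)
    exact absurd hle (not_le.mpr (Nat.pow_lt_pow_right hp hlt))
  intro i j hij
  by_contra hne
  rcases lt_or_gt_of_ne (fun h => hne (Fin.ext h)) with h | h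
  · exact key i j h hij
  · exact key j i h hij.symm

/-- **the fixed vectors of a locally periodic Frobenius-semilinear map span.** -/
theorem span_fixed_eq_top [IsAlgClosed k] (hf : f ≠ 0) {φ : V →+ V}
    (hφ : IsFrobSemilinear k p f φ) (hper : ∀ v, ∃ n, 0 < n ∧ φ^[n] v = v) :
    Submodule.span k {v : V | φ v = v} = ⊤ := by
  rw [eq_top_iff]
  intro v _
  by_contra hv
  obtain ⟨n, hn, hvn⟩ := hper v
  obtain ⟨ψ, hψv, hψ⟩ := Submodule.exists_dual_map_eq_bot_of_notMem hv inferInstance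
  have hψ0 : ∀ w, φ w = w → ψ w = 0 := fun w hw => by
    have h1 : ψ w ∈ (Submodule.span k {v : V | φ v = v}).map ψ :=
      ⟨w, Submodule.subset_span hw, rfl⟩
    rw [hψ] at h1
    exact (Submodule.mem_bot k).mp h1
  have hli := (linearIndependent_monoidHom (Fq k p (f * n)) k).comp _
    (pow_char_injective (k := k) (p := p) hf n)
  have hrel : ∑ i : Fin n, ψ (φ^[(i : ℕ)] v) •
      (((powMonoidHom (p ^ (f * (i : ℕ))) : k →* k).comp
        ((Fq k p (f * n)).subtype : Fq k p (f * n) →* k) : Fq k p (f * n) →* k) :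
          Fq k p (f * n) → k) = 0 := by
    funext a
    have h1 := hψ0 _ (trace_fixed hφ hvn a.2)
    rw [map_sum] at h1
    rw [Finset.sum_apply, Pi.zero_apply, ← h1, ← Fin.sum_univ_eq_sum_range
      (fun i => ψ ((a : k) ^ (p ^ (f * i)) • φ^[i] v)) n]
    refine Finset.sum_congr rfl fun i _ => ?_
    rw [map_smul, smul_eq_mul, Pi.smul_apply, smul_eq_mul, mul_comm]
    rfl
  have h0 := Fintype.linearIndependent_iff.mp hli _ hrel ⟨0, hn⟩
  exact hψv (by simpa using h0)

end Span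


/-! ### counting the fixed vectors -/

section Count

variable {k : Type*} [Field k] {p : ℕ} [Fact p.Prime] [CharP k p] {f : ℕ}
  {V : Type*} [AddCommGroup V] [Module k V]

/-- a basis of `V` consisting of fixed vectors -/
theorem exists_basis_fixed [IsAlgClosed k] (hf : f ≠ 0) {φ : V →+ V}
    (hφ : IsFrobSemilinear k p f φ) (hper : ∀ v, ∃ n, 0 < n ∧ φ^[n] v = v) :
    ∃ (s : Set V) (b : Module.Basis s k V), (∀ i, b i = (i : V)) ∧ ∀ i : s, φ (i : V) = i := by
  obtain ⟨s, hsub, hspan, hli⟩ := exists_linearIndependent k {v : V | φ v = v}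
  have htop : ⊤ ≤ Submodule.span k (Set.range (fun i : s => (i : V))) := by
    rw [Subtype.range_coe, hspan, span_fixed_eq_top hf hφ hper]
  exact ⟨s, Module.Basis.mk hli htop, fun i => Module.Basis.mk_apply hli htop i,
    fun i => hsub i.2⟩

/-- the fixed vectors, in coordinates -/
def fixedEquiv {φ : V →+ V} (hφ : IsFrobSemilinear k p f φ) {ι : Type*} [Fintype ι]
    (b : Module.Basis ι k V) (hb : ∀ i, φ (b i) = b i) :
    {v : V // φ v = v} ≃ (ι → Fq k p f) where
  toFun v := fun i => ⟨b.repr v i, repr_mem_Fq_of_fixed hφ b hb v.2 i⟩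
  invFun c := ⟨∑ i, (c i : k) • b i, by
    exact fixed_sum hφ Finset.univ b (fun i _ => hb i) (fun i => (c i : k)) (fun i _ => (c i).2)⟩
  left_inv v := Subtype.ext (b.sum_repr v)
  right_inv c := by
    funext i
    apply Subtype.ext
    show b.repr (∑ j, (c j : k) • b j) i = c i
    rw [b.repr_sum_self]

/-- **`#V^φ = q ^ dim_k V`.** -/
theorem card_fixed [IsAlgClosed k] (hf : f ≠ 0) [FiniteDimensional k V] {φ : V →+ V}
    (hφ : IsFrobSemilinear k p f φ) (hper : ∀ v, ∃ n, 0 < n ∧ φ^[n] v = v) :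
    Nat.card {v : V // φ v = v} = (p ^ f) ^ Module.finrank k V := by
  obtain ⟨s, b, hb, hs⟩ := exists_basis_fixed hf hφ hper
  have : Fintype s := FiniteDimensional.fintypeBasisIndex b
  have hb' : ∀ i, φ (b i) = b i := fun i => by rw [hb i]; exact hs i
  have : NeZero f := ⟨hf⟩
  rw [Nat.card_congr (fixedEquiv hφ b hb'), Nat.card_fun, card_Fq hf, Nat.card_eq_fintype_card,
    Module.finrank_eq_card_basis b]

theorem finite_fixed [IsAlgClosed k] (hf : f ≠ 0) [FiniteDimensional k V] {φ : V →+ V}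
    (hφ : IsFrobSemilinear k p f φ) (hper : ∀ v, ∃ n, 0 < n ∧ φ^[n] v = v) :
    Finite {v : V // φ v = v} := by
  have h := card_fixed hf hφ hper
  have hpos : 0 < (p ^ f) ^ Module.finrank k V :=
    pow_pos (pow_pos (Fact.out : p.Prime).pos f) _
  exact Nat.finite_of_card_ne_zero (by rw [h]; exact hpos.ne')

/-- the nonzero elements of `F_q` -/
theorem card_Fq_ne_zero [IsAlgClosed k] (hf : f ≠ 0) :
    Nat.card {c : k // c ∈ Fq k p f ∧ c ≠ 0} = p ^ f - 1 := by
  have : NeZero f := ⟨hf⟩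
  have hfin : Finite (Fq k p f) := finite_Fq
  have e : {c : k // c ∈ Fq k p f ∧ c ≠ 0} ≃ {c : Fq k p f // c ≠ 0} :=
    { toFun := fun c => ⟨⟨c.1, c.2.1⟩, fun h => c.2.2 (congrArg Subtype.val h)⟩
      invFun := fun c => ⟨c.1.1, c.1.2, fun h => c.2 (Subtype.ext h)⟩
      left_inv := fun _ => rfl
      right_inv := fun _ => rfl }
  rw [Nat.card_congr e]
  have h1 : Nat.card {c : Fq k p f // c ≠ 0} = Nat.card (Fq k p f) - 1 := by
    have : Fintype (Fq k p f) := Fintype.ofFinite _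
    classical
    rw [Nat.card_eq_fintype_card, Nat.card_eq_fintype_card, Fintype.card_subtype_compl,
      Fintype.card_subtype_eq]
  rw [h1, card_Fq hf]

/-- **counting lines of fixed vectors**: if the fibres of a map `π` on the nonzero fixed vectors
are exactly the `kˣ`-proportionality classes, then `#(range π) · (q − 1) = q ^ dim_k V − 1`. -/
theorem card_range_mul [IsAlgClosed k] (hf : f ≠ 0) [FiniteDimensional k V] {φ : V →+ V}
    (hφ : IsFrobSemilinear k p f φ) (hper : ∀ v, ∃ n, 0 < n ∧ φ^[n] v = v)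
    {X : Type*} (π : {v : V // φ v = v ∧ v ≠ 0} → X)
    (hπ : ∀ v w : {v : V // φ v = v ∧ v ≠ 0}, π v = π w ↔ ∃ c : k, (w : V) = c • (v : V)) :
    Nat.card (Set.range π) * (p ^ f - 1) = (p ^ f) ^ Module.finrank k V - 1 := by
  classical
  have hfinV : Finite {v : V // φ v = v} := finite_fixed hf hφ hper
  -- the nonzero fixed vectors
  have e0 : {v : V // φ v = v ∧ v ≠ 0} ≃ {w : {v : V // φ v = v} // ¬ ((w : V) = 0)} :=
    { toFun := fun v => ⟨⟨v.1, v.2.1⟩, v.2.2⟩
      invFun := fun v => ⟨v.1.1, v.1.2, v.2⟩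
      left_inv := fun _ => rfl
      right_inv := fun _ => rfl }
  have hS : Nat.card {v : V // φ v = v ∧ v ≠ 0} = (p ^ f) ^ Module.finrank k V - 1 := by
    rw [Nat.card_congr e0]
    have : Fintype {v : V // φ v = v} := Fintype.ofFinite _
    have h1 : Fintype.card {w : {v : V // φ v = v} // (w : V) = 0} = 1 :=
      Fintype.card_eq_one_iff.mpr
        ⟨⟨⟨0, map_zero φ⟩, rfl⟩, fun w => Subtype.ext (Subtype.ext w.2)⟩
    rw [Nat.card_eq_fintype_card, Fintype.card_subtype_compl, h1,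
      ← Nat.card_eq_fintype_card, card_fixed hf hφ hper]
  -- representatives of the fibres
  have hrep : ∀ x : Set.range π, ∃ v, π v = x := fun x => x.2
  choose r hr using hrep
  -- the bijection `range π × F_q^× ≃ S`
  have hmem : ∀ (x : Set.range π) (c : {c : k // c ∈ Fq k p f ∧ c ≠ 0}),
      φ ((c : k) • (r x : V)) = (c : k) • (r x : V) ∧ (c : k) • (r x : V) ≠ 0 := by
    intro x c
    refine ⟨?_, smul_ne_zero c.2.2 (r x).2.2⟩
    rw [hφ, (r x).2.1, mem_Fq.mp c.2.1]
  let Φ : Set.range π × {c : k // c ∈ Fq k p f ∧ c ≠ 0} → {v : V // φ v = v ∧ v ≠ 0} :=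
    fun xc => ⟨(xc.2 : k) • (r xc.1 : V), hmem xc.1 xc.2⟩
  have hπΦ : ∀ xc, π (Φ xc) = xc.1 := by
    intro xc
    rw [← hr xc.1]
    exact ((hπ (r xc.1) (Φ xc)).mpr ⟨xc.2, rfl⟩).symm
  have hinj : Function.Injective Φ := by
    intro xc yd h
    have h1 : xc.1 = yd.1 := by
      apply Subtype.ext
      rw [← hπΦ xc, ← hπΦ yd, h]
    have h2 : (xc.2 : k) • (r xc.1 : V) = (yd.2 : k) • (r yd.1 : V) := congrArg Subtype.val h
    rw [← h1] at h2
    have h3 : (xc.2 : k) = yd.2 := by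
      have h4 : ((xc.2 : k) - yd.2) • (r xc.1 : V) = 0 := by rw [sub_smul, h2, sub_self]
      rcases smul_eq_zero.mp h4 with h5 | h5
      · exact sub_eq_zero.mp h5
      · exact absurd h5 (r xc.1).2.2
    exact Prod.ext h1 (Subtype.ext h3)
  have hsurj : Function.Surjective Φ := by
    intro v
    obtain ⟨c, hc⟩ := (hπ (r ⟨π v, v, rfl⟩) v).mp (hr ⟨π v, v, rfl⟩)
    have hc0 : c ≠ 0 := by
      rintro rfl
      rw [zero_smul] at hc
      exact v.2.2 hc
    have hcq : c ∈ Fq k p f := by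
      have h1 : φ (v : V) = c ^ (p ^ f) • (r ⟨π v, v, rfl⟩ : V) := by
        rw [hc, hφ, (r ⟨π v, v, rfl⟩).2.1]
      rw [v.2.1, hc] at h1
      have h4 : (c - c ^ (p ^ f)) • (r ⟨π v, v, rfl⟩ : V) = 0 := by
        rw [sub_smul, ← h1, sub_self]
      rcases smul_eq_zero.mp h4 with h5 | h5
      · exact mem_Fq.mpr (sub_eq_zero.mp h5).symm
      · exact absurd h5 (r ⟨π v, v, rfl⟩).2.2
    exact ⟨(⟨π v, v, rfl⟩, ⟨c, hcq, hc0⟩), Subtype.ext hc.symm⟩
  have hcard := Nat.card_congr (Equiv.ofBijective Φ ⟨hinj, hsurj⟩)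
  rw [Nat.card_prod, card_Fq_ne_zero hf, hS] at hcard
  exact hcard

end Count

end Fermat.Agent.GJ27.Desc
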