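/-
GATE-J27 (S27) / node A1 = GJ27-DESC (helper56), file 2.

**The Frobenius on `L(D)` for an invariant divisor `D`.**  Frame: helper3's `FrobData p k Ft`
(`GJ27/Frob/Basic.lean`: `g : SemilinearAut k Ft`, `baseAut g a = a ^ (p ^ f)`, every element of `Ft`
fixed by a positive power of `g`), `k` algebraically closed of characteristic `p`.

* `deg_eq_one`            : all places have degree one (`k` algebraically closed, finite residues);
* `exists_const_of_ord_eq_zero` : a function without zeros and poles is a nonzero constant;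
* `dv`, `dv_apply`, `smul_dv`, `dv_mul`, … : THE divisor of a function;
* `smul_mem_L`            : `g • D = D ⟹ g • L(D) ⊆ L(D)`;
* `frobL Φ D hD : L(D) →+ L(D)`, `frobL_semilinear`, `frobL_periodic`;
* **`card_fixed_L`**      : `#{x ∈ L(D) | g • x = x} = q ^ ℓ(D)`.
-/
import Mathlib
import Fermat.Agent.GJ27.Frob.Orbits
import Fermat.Agent.GJ27.Desc.Semilinear

set_option autoImplicit false

noncomputable section

open AlgebraicCurve

namespace Fermat.Agent.GJ27.Desc

open Fermat.Agent.RRh45 Fermat.Agent.S24 Fermat.Agent.GJ27.Frob Fermat.Agent.GR.W.RedFinAbs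

variable {p : ℕ} {k Ft : Type*} [Field k] [Field Ft] [Algebra k Ft]

/-! ### places of degree one, constants -/

/-- over an algebraically closed constant field all places have degree one -/
theorem deg_eq_one [IsAlgClosed k] [FiniteResidues k Ft] (v : Place k Ft) : v.deg = 1 := by
  have hfin : Module.Finite k v.ResidueField := FiniteResidues.finite v
  have hint : Algebra.IsIntegral k v.ResidueField := Algebra.IsIntegral.of_finite k _
  have hsurj : Function.Surjective (algebraMap k v.ResidueField) :=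
    (IsAlgClosed.algebraMap_bijective_of_isIntegral (k := k)).2
  show Module.finrank k v.ResidueField = 1
  rw [finrank_eq_one_iff_of_nonzero' (1 : v.ResidueField) one_ne_zero]
  intro w
  obtain ⟨c, hc⟩ := hsurj w
  exact ⟨c, by rw [Algebra.smul_def, mul_one, hc]⟩

/-- a function without zeros and poles is a nonzero constant -/
theorem exists_const_of_ord_eq_zero [HasPrincipalDivisors k Ft] [Nonempty (Place k Ft)]
    (hdeg : ∀ Q : Place k Ft, Q.deg = 1) {x : Ft} (hx : x ≠ 0) (h : ∀ v : Place k Ft, v.ord x = 0) :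
    ∃ a : k, a ≠ 0 ∧ x = algebraMap k Ft a := by
  obtain ⟨Q⟩ := ‹Nonempty (Place k Ft)›
  obtain ⟨a, ha | ha⟩ := exists_value Q (hdeg Q) (le_of_eq (h Q).symm)
  · refine ⟨a, ?_, ha⟩
    rintro rfl
    rw [map_zero] at ha
    exact hx ha
  · exfalso
    set y : Ft := x - algebraMap k Ft a with hy
    have hy0 : y ≠ 0 := by
      intro h0
      rw [h0, Place.ord_zero] at ha
      exact lt_irrefl _ ha
    have hmem : y ∈ riemannRochSpace (-(Finsupp.single Q (1 : ℤ)) : Divisor k Ft) := by
      rw [mem_riemannRochSpace_iff]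
      intro v
      right
      by_cases hv : v = Q
      · subst hv
        rw [Finsupp.neg_apply, Finsupp.single_eq_same, neg_neg]
        omega
      · rw [Finsupp.neg_apply, Finsupp.single_eq_of_ne hv, neg_zero, neg_zero]
        by_cases ha0 : a = 0
        · rw [hy, ha0, map_zero, sub_zero, h v]
        · have hna : -algebraMap k Ft a ≠ 0 :=
            neg_ne_zero.mpr ((map_ne_zero (algebraMap k Ft)).mpr ha0)
          have hsum : x + -algebraMap k Ft a ≠ 0 := by rwa [← sub_eq_add_neg]
          have := PlaceB.ord_add_ge v hx hna hsum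
          rw [h v, PlaceB.ord_neg, PlaceB.ord_algebraMap v ha0, min_self, ← sub_eq_add_neg] at this
          exact this
    have hneg : Divisor.degree (-(Finsupp.single Q (1 : ℤ)) : Divisor k Ft) < 0 := by
      rw [map_neg, Divisor.degree_single, hdeg Q]
      norm_num
    rw [riemannRochSpace_eq_bot_of_degree_neg hneg, Submodule.mem_bot] at hmem
    exact hy0 hmem

/-! ### the divisor of a function -/

section Dv

variable [HasPrincipalDivisors k Ft]

variable (k) in
/-- the divisor of `x` (`0` for `x = 0`) -/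
def dv (x : Ft) : Divisor k Ft := by
  classical
  exact if h : x = 0 then 0 else (HasPrincipalDivisors.exists_divisor (K := k) x h).choose

theorem dv_apply {x : Ft} (hx : x ≠ 0) (v : Place k Ft) : dv k x v = v.ord x := by
  unfold dv
  rw [dif_neg hx]
  exact (HasPrincipalDivisors.exists_divisor (K := k) x hx).choose_spec.1 v

theorem degree_dv (x : Ft) : Divisor.degree (dv k x) = 0 := by
  by_cases hx : x = 0
  · unfold dv; rw [dif_pos hx, map_zero]
  · unfold dv
    rw [dif_neg hx]
    exact (HasPrincipalDivisors.exists_divisor (K := k) x hx).choose_spec.2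

theorem dv_mem_principal {x : Ft} (hx : x ≠ 0) : dv k x ∈ Divisor.principal (K := k) (F := Ft) :=
  ⟨x, hx, fun v => dv_apply hx v⟩

theorem eq_dv_of_forall {x : Ft} (hx : x ≠ 0) {D : Divisor k Ft} (h : ∀ v, D v = v.ord x) :
    D = dv k x := by
  ext v
  rw [h v, dv_apply hx]

theorem dv_mul {x y : Ft} (hx : x ≠ 0) (hy : y ≠ 0) : dv k (x * y) = dv k x + dv k y := by
  ext v
  rw [Finsupp.add_apply, dv_apply (mul_ne_zero hx hy), dv_apply hx, dv_apply hy, v.ord_mul hx hy]

theorem dv_algebraMap_mul {a : k} (ha : a ≠ 0) {x : Ft} (hx : x ≠ 0) :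
    dv k (algebraMap k Ft a * x) = dv k x := by
  have ha' : algebraMap k Ft a ≠ 0 := (map_ne_zero (algebraMap k Ft)).mpr ha
  ext v
  rw [dv_apply (mul_ne_zero ha' hx), dv_apply hx, v.ord_mul ha' hx, PlaceB.ord_algebraMap v ha,
    zero_add]

theorem smul_dv (g : SemilinearAut k Ft) {x : Ft} (hx : x ≠ 0) : g • dv k x = dv k (g • x) := by
  have hgx : g • x ≠ 0 := (smul_ne_zero_iff_ne g).mpr hx
  ext v
  rw [SemilinearAut.divisor_smul_apply, dv_apply hx, dv_apply hgx]
  have h3 := SemilinearAut.ord_smul g (g⁻¹ • v) x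
  rw [smul_inv_smul] at h3
  exact h3.symm

/-- functions with the same divisor differ by a nonzero constant -/
theorem exists_const_of_dv_eq [Nonempty (Place k Ft)] (hdeg : ∀ Q : Place k Ft, Q.deg = 1)
    {x y : Ft} (hx : x ≠ 0) (hy : y ≠ 0) (h : dv k x = dv k y) :
    ∃ a : k, a ≠ 0 ∧ y = algebraMap k Ft a * x := by
  have hq : y / x ≠ 0 := div_ne_zero hy hx
  obtain ⟨a, ha, hax⟩ := exists_const_of_ord_eq_zero hdeg hq (fun v => by
    rw [div_eq_mul_inv, v.ord_mul hy (inv_ne_zero hx), v.ord_inv, ← dv_apply hx, ← dv_apply hy, h]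
    ring)
  refine ⟨a, ha, ?_⟩
  rw [← hax, div_mul_cancel₀ y hx]

end Dv

/-! ### the Frobenius on `L(D)` -/

section Transport

variable (g : SemilinearAut k Ft)

theorem smul_mem_L {D : Divisor k Ft} (hD : g • D = D) {x : Ft}
    (hx : x ∈ riemannRochSpace D) : g • x ∈ riemannRochSpace D := by
  rw [mem_riemannRochSpace_iff] at hx ⊢
  intro v
  rcases hx (g⁻¹ • v) with h0 | h1
  · left; rw [h0, smul_zero]
  · right
    have h2 : (g • D) v = D (g⁻¹ • v) := SemilinearAut.divisor_smul_apply g D v
    rw [hD] at h2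
    have h3 := SemilinearAut.ord_smul g (g⁻¹ • v) x
    rw [smul_inv_smul] at h3
    rw [h2, h3]
    exact h1

end Transport

section FrobL

variable (Φ : FrobData p k Ft)

/-- the Frobenius on `L(D)`, `D` invariant -/
def frobL (D : Divisor k Ft) (hD : Φ.g • D = D) : riemannRochSpace D →+ riemannRochSpace D where
  toFun x := ⟨Φ.g • (x : Ft), smul_mem_L Φ.g hD x.2⟩
  map_zero' := Subtype.ext (smul_zero _)
  map_add' _ _ := Subtype.ext (smul_add _ _ _)

@[simp] theorem coe_frobL (D : Divisor k Ft) (hD : Φ.g • D = D) (x : riemannRochSpace D) :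
    ((frobL Φ D hD x : riemannRochSpace D) : Ft) = Φ.g • (x : Ft) := rfl

theorem coe_frobL_iterate (D : Divisor k Ft) (hD : Φ.g • D = D) (n : ℕ) (x : riemannRochSpace D) :
    (((frobL Φ D hD)^[n] x : riemannRochSpace D) : Ft) = (Φ.g ^ n) • (x : Ft) := by
  induction n generalizing x with
  | zero => simp
  | succ n ih =>
    rw [Function.iterate_succ_apply', coe_frobL, ih, pow_succ', mul_smul]

variable [Fact p.Prime] [CharP k p]

theorem frobL_semilinear (D : Divisor k Ft) (hD : Φ.g • D = D) :
    IsFrobSemilinear k p Φ.f (frobL Φ D hD) := by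
  intro a x
  apply Subtype.ext
  show Φ.g • ((a • x : riemannRochSpace D) : Ft) = _
  rw [Submodule.coe_smul, Submodule.coe_smul, Algebra.smul_def, smul_mul', Algebra.smul_def,
    SemilinearAut.smul_algebraMap, Φ.base]
  rfl

theorem frobL_periodic (D : Divisor k Ft) (hD : Φ.g • D = D) (x : riemannRochSpace D) :
    ∃ n, 0 < n ∧ (frobL Φ D hD)^[n] x = x := by
  obtain ⟨n, hn, h⟩ := Φ.fix (x : Ft)
  exact ⟨n, hn, Subtype.ext (by rw [coe_frobL_iterate, h])⟩

variable [IsAlgClosed k] [FiniteResidues k Ft] [HasPrincipalDivisors k Ft] [Nonempty (Place k Ft)]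

/-- **`#L(D)^σ = q ^ ℓ(D)`** -/
theorem card_fixed_L (D : Divisor k Ft) (hD : Φ.g • D = D) :
    Nat.card {x : riemannRochSpace D // frobL Φ D hD x = x} =
      (p ^ Φ.f) ^ Module.finrank k (riemannRochSpace D) :=
  card_fixed (Nat.pos_iff_ne_zero.mp Φ.hf) (frobL_semilinear Φ D hD) (frobL_periodic Φ D hD)

end FrobL

end Fermat.Agent.GJ27.Desc
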