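/-
GATE-J27 (S27) / node A1 = GJ27-DESC (helper56), file 3.

**Counting the invariant effective divisors in a class.**  Frame of `Desc/LSpace.lean`
(`Φ : FrobData p k Ft`, `k` algebraically closed of characteristic `p`, `q = p ^ Φ.f`).  For an
invariant divisor `D` (`Φ.g • D = D`):

* `invEffSet Φ D`      : the invariant effective divisors `E` with `E - D` principal;
* `piL`                : nonzero fixed `x ∈ L(D)` `↦ D + div x`; `piL_eq_iff` (fibres = `kˣ`-lines),
                         `range_piL` (image = `invEffSet Φ D`; an invariant principal divisor is the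
                         divisor of an invariant function);
* **`card_invEffSet_mul`** : `#(invEffSet Φ D) · (q − 1) = q ^ ℓ(D) − 1`;
* `card_invEff_mul`    : the same for the subtype `{E // 0 ≤ E ∧ Φ.g • E = E ∧ E - D ∈ principal}`;
* `finite_invEffSet`.
-/
import Mathlib
import Fermat.Agent.GJ27.Desc.LSpace

set_option autoImplicit false

noncomputable section

open AlgebraicCurve

namespace Fermat.Agent.GJ27.Desc

open Fermat.Agent.RRh45 Fermat.Agent.S24 Fermat.Agent.GJ27.Frob Fermat.Agent.GR.W.RedFinAbs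

variable {p : ℕ} {k Ft : Type*} [Field k] [Field Ft] [Algebra k Ft]

/-- the invariant effective divisors linearly equivalent to `D` -/
def invEffSet (Φ : FrobData p k Ft) (D : Divisor k Ft) : Set (Divisor k Ft) :=
  {E | 0 ≤ E ∧ Φ.g • E = E ∧ E - D ∈ Divisor.principal (K := k) (F := Ft)}

theorem mem_invEffSet {Φ : FrobData p k Ft} {D E : Divisor k Ft} :
    E ∈ invEffSet Φ D ↔ 0 ≤ E ∧ Φ.g • E = E ∧ E - D ∈ Divisor.principal (K := k) (F := Ft) :=
  Iff.rfl

variable [HasPrincipalDivisors k Ft]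

/-- nonzero fixed `x ∈ L(D)` `↦ D + div x` -/
def piL (Φ : FrobData p k Ft) (D : Divisor k Ft) (hD : Φ.g • D = D) :
    {x : riemannRochSpace D // frobL Φ D hD x = x ∧ x ≠ 0} → Divisor k Ft :=
  fun x => D + dv k ((x : riemannRochSpace D) : Ft)

variable [Fact p.Prime] [CharP k p] [IsAlgClosed k] [FiniteResidues k Ft] [Nonempty (Place k Ft)]

variable (Φ : FrobData p k Ft)

omit [Fact p.Prime] [CharP k p] in
theorem piL_eq_iff (D : Divisor k Ft) (hD : Φ.g • D = D)
    (x y : {x : riemannRochSpace D // frobL Φ D hD x = x ∧ x ≠ 0}) :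
    piL Φ D hD x = piL Φ D hD y ↔
      ∃ c : k, ((y : riemannRochSpace D)) = c • (x : riemannRochSpace D) := by
  have hx0 : ((x : riemannRochSpace D) : Ft) ≠ 0 := fun h => x.2.2 (Subtype.ext h)
  have hy0 : ((y : riemannRochSpace D) : Ft) ≠ 0 := fun h => y.2.2 (Subtype.ext h)
  constructor
  · intro h
    have h1 : dv k ((x : riemannRochSpace D) : Ft) = dv k ((y : riemannRochSpace D) : Ft) :=
      add_left_cancel h
    obtain ⟨a, -, ha⟩ := exists_const_of_dv_eq (fun Q => deg_eq_one Q) hx0 hy0 h1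
    refine ⟨a, Subtype.ext ?_⟩
    rw [Submodule.coe_smul, Algebra.smul_def]
    exact ha
  · rintro ⟨c, hc⟩
    have hc0 : c ≠ 0 := by
      rintro rfl
      rw [zero_smul] at hc
      exact y.2.2 hc
    have h1 : ((y : riemannRochSpace D) : Ft) =
        algebraMap k Ft c * ((x : riemannRochSpace D) : Ft) := by
      rw [hc, Submodule.coe_smul, Algebra.smul_def]
    show D + dv k _ = D + dv k _
    rw [h1, dv_algebraMap_mul hc0 hx0]

omit [CharP k p] in
/-- the image of `piL` is the set of invariant effective divisors equivalent to `D` -/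
theorem range_piL (D : Divisor k Ft) (hD : Φ.g • D = D) :
    Set.range (piL Φ D hD) = invEffSet Φ D := by
  have hdeg : ∀ Q : Place k Ft, Q.deg = 1 := fun Q => deg_eq_one Q
  ext E
  constructor
  · rintro ⟨x, rfl⟩
    have hx0 : ((x : riemannRochSpace D) : Ft) ≠ 0 := fun h => x.2.2 (Subtype.ext h)
    have hxfix : Φ.g • ((x : riemannRochSpace D) : Ft) = ((x : riemannRochSpace D) : Ft) :=
      congrArg Subtype.val x.2.1
    have hxmem := (x : riemannRochSpace D).2
    rw [mem_riemannRochSpace_iff] at hxmem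
    refine ⟨?_, ?_, ?_⟩
    · rw [Finsupp.le_def]
      intro v
      show (0 : ℤ) ≤ (D + dv k ((x : riemannRochSpace D) : Ft)) v
      rw [Finsupp.add_apply, dv_apply hx0]
      rcases hxmem v with h | h
      · exact absurd h hx0
      · omega
    · show Φ.g • (D + dv k ((x : riemannRochSpace D) : Ft)) = D + dv k _
      rw [smul_add, hD, smul_dv Φ.g hx0, hxfix]
    · show D + dv k ((x : riemannRochSpace D) : Ft) - D ∈ _
      rw [add_sub_cancel_left]
      exact dv_mem_principal hx0
  · rintro ⟨hE0, hEfix, y, hy0, hy⟩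
    have hED : E - D = dv k y := eq_dv_of_forall hy0 hy
    -- `g • y = c y`
    have hgy0 : Φ.g • y ≠ 0 := (smul_ne_zero_iff_ne Φ.g).mpr hy0
    have h1 : dv k y = dv k (Φ.g • y) := by
      rw [← smul_dv Φ.g hy0, ← hED, smul_sub, hEfix, hD]
    obtain ⟨c, hc0, hc⟩ := exists_const_of_dv_eq hdeg hy0 hgy0 h1
    -- rescale
    have hq : 0 < p ^ Φ.f - 1 := by
      have : 1 < p ^ Φ.f :=
        Nat.one_lt_pow (Nat.pos_iff_ne_zero.mp Φ.hf) (Fact.out : p.Prime).one_lt
      omega
    obtain ⟨b, hb⟩ := IsAlgClosed.exists_pow_nat_eq c⁻¹ hq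
    have hb0 : b ≠ 0 := by
      rintro rfl
      rw [zero_pow hq.ne'] at hb
      exact inv_ne_zero hc0 hb.symm
    have hbq : b ^ (p ^ Φ.f) * c = b := by
      have : p ^ Φ.f = (p ^ Φ.f - 1) + 1 := by omega
      rw [this, pow_succ, hb, mul_assoc, mul_comm b, ← mul_assoc, inv_mul_cancel₀ hc0, one_mul]
    set x : Ft := algebraMap k Ft b * y with hx
    have hx0 : x ≠ 0 := mul_ne_zero ((map_ne_zero (algebraMap k Ft)).mpr hb0) hy0
    have hymem : y ∈ riemannRochSpace D := by
      rw [mem_riemannRochSpace_iff]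
      intro v
      right
      rw [← hy v, Finsupp.sub_apply]
      have := Finsupp.le_def.mp hE0 v
      simp only [Finsupp.coe_zero, Pi.zero_apply] at this
      omega
    have hxmem : x ∈ riemannRochSpace D := by
      rw [hx, ← Algebra.smul_def]
      exact Submodule.smul_mem _ b hymem
    have hxfix : Φ.g • x = x := by
      rw [hx, smul_mul', SemilinearAut.smul_algebraMap, Φ.base, hc, ← mul_assoc, ← map_mul, hbq]
    refine ⟨⟨⟨x, hxmem⟩, Subtype.ext hxfix, fun h => hx0 (congrArg Subtype.val h)⟩, ?_⟩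
    show D + dv k x = E
    rw [hx, dv_algebraMap_mul hb0 hy0, ← hED, add_sub_cancel]

/-- **`#{E ≥ 0 invariant, E ∼ D} · (q − 1) = q ^ ℓ(D) − 1`** -/
theorem card_invEffSet_mul (D : Divisor k Ft) (hD : Φ.g • D = D) :
    Nat.card (invEffSet Φ D) * (p ^ Φ.f - 1) =
      (p ^ Φ.f) ^ Module.finrank k (riemannRochSpace D) - 1 := by
  rw [← range_piL Φ D hD]
  exact card_range_mul (Nat.pos_iff_ne_zero.mp Φ.hf) (frobL_semilinear Φ D hD)
    (frobL_periodic Φ D hD) (piL Φ D hD) (piL_eq_iff Φ D hD)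

/-- subtype form of `card_invEffSet_mul` -/
theorem card_invEff_mul (D : Divisor k Ft) (hD : Φ.g • D = D) :
    Nat.card {E : Divisor k Ft // 0 ≤ E ∧ Φ.g • E = E ∧
        E - D ∈ Divisor.principal (K := k) (F := Ft)} * (p ^ Φ.f - 1) =
      (p ^ Φ.f) ^ Module.finrank k (riemannRochSpace D) - 1 :=
  card_invEffSet_mul Φ D hD

theorem finite_invEffSet (D : Divisor k Ft) (hD : Φ.g • D = D) : (invEffSet Φ D).Finite := by
  rw [← range_piL Φ D hD]
  have hfin : Finite {x : riemannRochSpace D // frobL Φ D hD x = x} :=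
    finite_fixed (Nat.pos_iff_ne_zero.mp Φ.hf) (frobL_semilinear Φ D hD) (frobL_periodic Φ D hD)
  have : Finite {x : riemannRochSpace D // frobL Φ D hD x = x ∧ x ≠ 0} :=
    Finite.of_injective
      (fun x => (⟨x.1, x.2.1⟩ : {x : riemannRochSpace D // frobL Φ D hD x = x}))
      (fun x y h => Subtype.ext (congrArg
        (fun z : {x : riemannRochSpace D // frobL Φ D hD x = x} => (z : riemannRochSpace D)) h))
  exact Set.finite_range _

/-- the count depends only on `ℓ(D)`: in `ℤ`, `#𝓔 · (q − 1) = q ^ ℓ(D) − 1` -/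
theorem card_invEffSet_mul_int (D : Divisor k Ft) (hD : Φ.g • D = D) :
    (Nat.card (invEffSet Φ D) : ℤ) * ((p : ℤ) ^ Φ.f - 1) =
      ((p : ℤ) ^ Φ.f) ^ Module.finrank k (riemannRochSpace D) - 1 := by
  have h := card_invEffSet_mul Φ D hD
  have hp1 : 1 ≤ p ^ Φ.f := Nat.one_le_pow _ _ (Fact.out : p.Prime).pos
  have hp2 : 1 ≤ (p ^ Φ.f) ^ Module.finrank k (riemannRochSpace D) := Nat.one_le_pow _ _ hp1
  have h2 : ((Nat.card (invEffSet Φ D) * (p ^ Φ.f - 1) : ℕ) : ℤ) =
      (((p ^ Φ.f) ^ Module.finrank k (riemannRochSpace D) - 1 : ℕ) : ℤ) := by rw [h]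
  rw [Nat.cast_mul, Nat.cast_sub hp1, Nat.cast_sub hp2] at h2
  push_cast at h2
  exact h2

end Fermat.Agent.GJ27.Desc
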