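/-
GATE-J27 (S27) / seam A1 + A3 → A4 (helper56): **the class-by-class count in the frame.**

Frame of `Desc/LSpace.lean` (`Φ : FrobData p k Ft`, `k` algebraically closed, `q = p ^ Φ.f`), an
invariant divisor `D₁` of degree one (e.g. a fixed place), a canonical divisor `W` in the shape of
`GJ27/RRCons.lean` (`hdual : ∀ D, finrank (H1 D) = ℓ(W - D)`).  With
`A d := #{E ≥ 0 | Φ.g • E = E, deg E = d}` and `h := #{x : Pic0 k Ft | Φ.g • x = x}`:

* `card_invEffDeg_zero`       : `A 0 = 1`;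
* `sub_one_mul_card_invEffDeg`: `(q − 1) A d = ∑_{x ∈ Pic0^g} (q ^ ℓ(R x + d D₁) − 1)`
                                (`R x` an invariant representative of `x`, `Desc/Cl0.lean`);
* `card_invEffDeg_stable`     : `2g ≤ d + 1 ⟹ (q − 1) A d = h (q^(d+1−g) − 1)`;
* `smul_canonical_sub_mem_principal` : the canonical class is invariant;
* `card_invEffDeg_top`        : `1 ≤ g ⟹ (q − 1) A (2g−2) = (h − 1)(q^(g−1) − 1) + (q^g − 1)`;
* **`exists_lPolynomial_of_frame`** : `(1 − T)(1 − qT) ∑ A_d T^d = L(T)`, `L ∈ ℤ[T]`, `L(0) = 1`,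
  `L(1) = h`, `deg L = 2g`, leading coefficient `q^g` (`g = genusFF k Ft`), via helper1's
  `ZRR.exists_lPolynomial`.
-/
import Mathlib
import Fermat.Agent.GJ27.Desc.Cl0
import Fermat.Agent.GJ27.Desc.InvEff
import Fermat.Agent.GJ27.RRCons
import Fermat.Agent.GH.Gal.ChartTransport
import Fermat.Agent.GJ27.ZRR.Abstract

set_option autoImplicit false

noncomputable section

open AlgebraicCurve

namespace Fermat.Agent.GJ27.Desc

open Fermat.Agent.RRh45 Fermat.Agent.RR Fermat.Agent.S24 Fermat.Agent.GJ27.Frob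
  Fermat.Agent.GR.W.RedFinAbs

variable {p : ℕ} {k Ft : Type*} [Field k] [Field Ft] [Algebra k Ft]

/-! ### generalities -/

theorem pic0_mk_eq_mk_iff (D E : Divisor.degZero (K := k) (F := Ft)) :
    Pic0.mk D = Pic0.mk E ↔
      (D : Divisor k Ft) - (E : Divisor k Ft) ∈ Divisor.principal (K := k) (F := Ft) := by
  have h : Pic0.mk D = Pic0.mk E ↔ -D + E ∈
      (Divisor.principal (K := k) (F := Ft)).addSubgroupOf (Divisor.degZero (K := k) (F := Ft)) :=
    QuotientAddGroup.eq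
  rw [h, AddSubgroup.mem_addSubgroupOf]
  have h2 : ((-D + E : Divisor.degZero (K := k) (F := Ft)) : Divisor k Ft) =
      -((D : Divisor k Ft) - (E : Divisor k Ft)) := by
    rw [AddSubgroup.coe_add, AddSubgroup.coe_neg]; abel
  rw [h2, neg_mem_iff]

theorem degree_eq_zero_of_mem_principal [HasPrincipalDivisors k Ft] {D : Divisor k Ft}
    (h : D ∈ Divisor.principal (K := k) (F := Ft)) : Divisor.degree D = 0 := by
  obtain ⟨y, hy0, hy⟩ := h
  rw [eq_dv_of_forall hy0 hy, degree_dv]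

/-- **`ℓ(0) = 1`** over an algebraically closed constant field -/
theorem ell_zero_eq_one [IsAlgClosed k] [FiniteResidues k Ft] [HasPrincipalDivisors k Ft]
    [Nonempty (Place k Ft)] : ell (0 : Divisor k Ft) = 1 := by
  have hdeg : ∀ Q : Place k Ft, Q.deg = 1 := fun Q => deg_eq_one Q
  have hspan : riemannRochSpace (0 : Divisor k Ft) = Submodule.span k {(1 : Ft)} := by
    apply le_antisymm
    · intro f hf
      rw [Submodule.mem_span_singleton]
      by_cases hf0 : f = 0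
      · exact ⟨0, by rw [zero_smul, hf0]⟩
      rw [mem_riemannRochSpace_iff] at hf
      have hnn : 0 ≤ dv k f := by
        rw [Finsupp.le_def]
        intro v
        rw [dv_apply hf0]
        rcases hf v with h | h
        · exact absurd h hf0
        · simpa using h
      have h0 : dv k f = 0 :=
        Fermat.Agent.GJ27.RRCons.eq_zero_of_nonneg_of_degree_eq_zero hnn (degree_dv f)
      obtain ⟨a, -, ha⟩ := exists_const_of_ord_eq_zero hdeg hf0 (fun v => by
        rw [← dv_apply hf0, h0]; rfl)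
      exact ⟨a, by rw [Algebra.smul_def, mul_one, ha]⟩
    · rw [Submodule.span_le, Set.singleton_subset_iff]
      show (1 : Ft) ∈ riemannRochSpace (0 : Divisor k Ft)
      rw [mem_riemannRochSpace_iff]
      intro v
      right
      rw [Place.ord_one]
      simp
  show Module.finrank k (riemannRochSpace (0 : Divisor k Ft)) = 1
  rw [hspan]
  exact finrank_span_singleton (K := k) (one_ne_zero (α := Ft))

/-! ### the frame -/

section Frame

variable [Fact p.Prime] [CharP k p] [IsAlgClosed k] [FiniteResidues k Ft]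
  [HasPrincipalDivisors k Ft] [Nonempty (Place k Ft)]

variable (Φ : FrobData p k Ft)

/-- the invariant classes of degree zero -/
abbrev InvCl : Type _ := {x : Pic0 k Ft // Φ.g • x = x}

omit [CharP k p] in
theorem finite_invCl : Finite (InvCl Φ) := by
  have hp : 1 < p := (Fact.out : p.Prime).one_lt
  have h := Φ.finite_fixed_pic0_pow hp (fun v => deg_eq_one v) 1 one_pos
  simp only [pow_one] at h
  exact h.to_subtype

/-- a chosen invariant representative of an invariant class -/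
def rep (x : InvCl Φ) : Divisor.degZero (K := k) (F := Ft) :=
  (exists_invariant_rep Φ x.1 x.2).choose

theorem rep_fixed (x : InvCl Φ) : Φ.g • (rep Φ x : Divisor k Ft) = (rep Φ x : Divisor k Ft) :=
  (exists_invariant_rep Φ x.1 x.2).choose_spec.1

theorem mk_rep (x : InvCl Φ) : Pic0.mk (rep Φ x) = x.1 :=
  (exists_invariant_rep Φ x.1 x.2).choose_spec.2

theorem degree_rep (x : InvCl Φ) : Divisor.degree (rep Φ x : Divisor k Ft) = 0 := (rep Φ x).2

variable (D₁ : Divisor k Ft)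

/-- the representative `R x + d D₁` of the class of degree `d` attached to `x` -/
def clsRep (d : ℕ) (x : InvCl Φ) : Divisor k Ft := (rep Φ x : Divisor k Ft) + d • D₁

omit [Fact p.Prime] [CharP k p] [IsAlgClosed k] [FiniteResidues k Ft] [HasPrincipalDivisors k Ft]
  [Nonempty (Place k Ft)] in
theorem smul_nsmul_of_fixed {D₁ : Divisor k Ft} (hD₁ : Φ.g • D₁ = D₁) (d : ℕ) :
    Φ.g • (d • D₁) = d • D₁ := by
  induction d with
  | zero => rw [zero_smul, smul_zero]
  | succ d ih => rw [succ_nsmul, smul_add, ih, hD₁]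

variable {D₁}

theorem clsRep_fixed (hD₁ : Φ.g • D₁ = D₁) (d : ℕ) (x : InvCl Φ) :
    Φ.g • clsRep Φ D₁ d x = clsRep Φ D₁ d x := by
  unfold clsRep
  rw [smul_add, rep_fixed, smul_nsmul_of_fixed Φ hD₁]

theorem degree_clsRep (hdeg₁ : Divisor.degree D₁ = 1) (d : ℕ) (x : InvCl Φ) :
    Divisor.degree (clsRep Φ D₁ d x) = d := by
  unfold clsRep
  rw [map_add, degree_rep, map_nsmul, hdeg₁, zero_add, nsmul_eq_mul, mul_one]

theorem clsRep_sub_clsRep (d : ℕ) (x y : InvCl Φ) :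
    clsRep Φ D₁ d x - clsRep Φ D₁ d y =
      (rep Φ x : Divisor k Ft) - (rep Φ y : Divisor k Ft) := by
  unfold clsRep; abel

/-- distinct classes have inequivalent representatives -/
theorem eq_of_clsRep_sub_mem_principal (d : ℕ) {x y : InvCl Φ}
    (h : clsRep Φ D₁ d x - clsRep Φ D₁ d y ∈ Divisor.principal (K := k) (F := Ft)) : x = y := by
  rw [clsRep_sub_clsRep, ← pic0_mk_eq_mk_iff, mk_rep, mk_rep] at h
  exact Subtype.ext h

/-- the class (shifted to degree zero) of an invariant divisor of degree `d` -/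
def clsOf (hD₁ : Φ.g • D₁ = D₁) (hdeg₁ : Divisor.degree D₁ = 1) (d : ℕ) (E : Divisor k Ft)
    (hE : Φ.g • E = E) (hdE : Divisor.degree E = d) : InvCl Φ :=
  ⟨Pic0.mk ⟨E - d • D₁, by
      rw [Divisor.mem_degZero, map_sub, hdE, map_nsmul, hdeg₁, nsmul_eq_mul, mul_one, sub_self]⟩, by
    rw [SemilinearAut.pic0_smul_mk]
    congr 1
    apply Subtype.ext
    rw [SemilinearAut.coe_degZeroSMulHom]
    show Φ.g • (E - d • D₁) = E - d • D₁
    rw [smul_sub, hE, smul_nsmul_of_fixed Φ hD₁]⟩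

theorem clsOf_eq_iff (hD₁ : Φ.g • D₁ = D₁) (hdeg₁ : Divisor.degree D₁ = 1) (d : ℕ)
    (E : Divisor k Ft) (hE : Φ.g • E = E) (hdE : Divisor.degree E = d) (x : InvCl Φ) :
    clsOf Φ hD₁ hdeg₁ d E hE hdE = x ↔
      E - clsRep Φ D₁ d x ∈ Divisor.principal (K := k) (F := Ft) := by
  rw [Subtype.ext_iff]
  show Pic0.mk _ = x.1 ↔ _
  rw [← mk_rep Φ x, pic0_mk_eq_mk_iff]
  have h : E - d • D₁ - (rep Φ x : Divisor k Ft) = E - clsRep Φ D₁ d x := by
    unfold clsRep; abel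
  show E - d • D₁ - (rep Φ x : Divisor k Ft) ∈ _ ↔ _
  rw [h]

/-- the invariant effective divisors of degree `d` -/
def invEffDeg (d : ℕ) : Set (Divisor k Ft) :=
  {E | 0 ≤ E ∧ Φ.g • E = E ∧ Divisor.degree E = d}

/-- the invariant effective divisors of degree `d` in the class attached to `x` -/
def fibreEquiv (hD₁ : Φ.g • D₁ = D₁) (hdeg₁ : Divisor.degree D₁ = 1) (d : ℕ) (x : InvCl Φ) :
    {E : invEffDeg Φ d // clsOf Φ hD₁ hdeg₁ d E.1 E.2.2.1 E.2.2.2 = x} ≃
      invEffSet Φ (clsRep Φ D₁ d x) where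
  toFun E := ⟨E.1.1, E.1.2.1, E.1.2.2.1,
    (clsOf_eq_iff Φ hD₁ hdeg₁ d E.1.1 E.1.2.2.1 E.1.2.2.2 x).mp E.2⟩
  invFun E :=
    have hdE : Divisor.degree (E : Divisor k Ft) = d := by
      have h1 := degree_eq_zero_of_mem_principal E.2.2.2
      rw [map_sub, degree_clsRep Φ hdeg₁] at h1
      linarith
    ⟨⟨E.1, E.2.1, E.2.2.1, hdE⟩, (clsOf_eq_iff Φ hD₁ hdeg₁ d E.1 E.2.2.1 hdE x).mpr E.2.2.2⟩
  left_inv _ := rfl
  right_inv _ := rfl

/-- `A 0 = 1` -/
theorem card_invEffDeg_zero : Nat.card (invEffDeg Φ 0) = 1 := by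
  have h : invEffDeg Φ 0 = {0} := by
    ext E
    constructor
    · rintro ⟨h0, -, hd⟩
      rw [Nat.cast_zero] at hd
      exact Fermat.Agent.GJ27.RRCons.eq_zero_of_nonneg_of_degree_eq_zero h0 hd
    · rintro rfl
      exact ⟨le_rfl, smul_zero _, by rw [map_zero, Nat.cast_zero]⟩
  rw [Nat.card_coe_set_eq, h, Set.ncard_singleton]

/-- **`(q − 1) A_d = ∑_x (q ^ ℓ(R x + d D₁) − 1)`** -/
theorem sub_one_mul_card_invEffDeg [Fintype (InvCl Φ)] (hD₁ : Φ.g • D₁ = D₁)
    (hdeg₁ : Divisor.degree D₁ = 1) (d : ℕ) :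
    ((p : ℤ) ^ Φ.f - 1) * (Nat.card (invEffDeg Φ d) : ℤ) =
      ∑ x : InvCl Φ, (((p : ℤ) ^ Φ.f) ^ ell (clsRep Φ D₁ d x) - 1) := by
  have hfin : ∀ x : InvCl Φ,
      Finite {E : invEffDeg Φ d // clsOf Φ hD₁ hdeg₁ d E.1 E.2.2.1 E.2.2.2 = x} := fun x =>
    have : Finite (invEffSet Φ (clsRep Φ D₁ d x)) :=
      (finite_invEffSet Φ _ (clsRep_fixed Φ hD₁ d x)).to_subtype
    Finite.of_equiv _ (fibreEquiv Φ hD₁ hdeg₁ d x).symm
  have h1 : Nat.card (invEffDeg Φ d) =
      ∑ x : InvCl Φ, Nat.card (invEffSet Φ (clsRep Φ D₁ d x)) := by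
    rw [← Nat.card_congr (Equiv.sigmaFiberEquiv
      (fun E : invEffDeg Φ d => clsOf Φ hD₁ hdeg₁ d E.1 E.2.2.1 E.2.2.2)), Nat.card_sigma]
    exact Finset.sum_congr rfl fun x _ => Nat.card_congr (fibreEquiv Φ hD₁ hdeg₁ d x)
  rw [h1, Nat.cast_sum, Finset.mul_sum]
  refine Finset.sum_congr rfl fun x _ => ?_
  rw [mul_comm]
  exact card_invEffSet_mul_int Φ _ (clsRep_fixed Φ hD₁ d x)

/-! ### Riemann–Roch input -/

variable (W : Divisor k Ft)
  (hdual : ∀ D : Divisor k Ft, Module.finrank k (H1 D) = ell (W - D))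

include hdual

/-- **stable range**: `2g ≤ d + 1 ⟹ (q − 1) A_d = h (q ^ (d + 1 − g) − 1)` -/
theorem card_invEffDeg_stable (hD₁ : Φ.g • D₁ = D₁) (hdeg₁ : Divisor.degree D₁ = 1) (d : ℕ)
    (hd : 2 * genusFF k Ft ≤ d + 1) :
    ((p : ℤ) ^ Φ.f - 1) * (Nat.card (invEffDeg Φ d) : ℤ) =
      (Nat.card (InvCl Φ) : ℤ) * (((p : ℤ) ^ Φ.f) ^ (d + 1 - genusFF k Ft) - 1) := by
  have : Finite (InvCl Φ) := finite_invCl Φ
  have : Fintype (InvCl Φ) := Fintype.ofFinite _
  rw [sub_one_mul_card_invEffDeg Φ hD₁ hdeg₁ d]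
  have hell : ∀ x : InvCl Φ, ell (clsRep Φ D₁ d x) = d + 1 - genusFF k Ft := by
    intro x
    have h1 := Fermat.Agent.GJ27.RRCons.ell_of_large_one W hdual ell_zero_eq_one
      (D := clsRep Φ D₁ d x) (by rw [degree_clsRep Φ hdeg₁]; omega)
    rw [degree_clsRep Φ hdeg₁] at h1
    omega
  rw [Finset.sum_congr rfl (fun x _ => by rw [hell x]), Finset.sum_const, Finset.card_univ,
    nsmul_eq_mul, Nat.card_eq_fintype_card]

omit [Fact p.Prime] [CharP k p] in
/-- **the canonical class is invariant** -/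
theorem smul_canonical_sub_mem_principal (g : SemilinearAut k Ft) :
    g • W - W ∈ Divisor.principal (K := k) (F := Ft) := by
  by_contra hnot
  have hW := Fermat.Agent.GJ27.RRCons.degree_canonical_one W hdual ell_zero_eq_one
  have h1 := (Fermat.Agent.GJ27.RRCons.ell_of_top_one W hdual ell_zero_eq_one (D := g • W)
    (by rw [SemilinearAut.degree_smul, hW])).2 hnot
  have h2 : ell (g • W) = ell W := Fermat.Agent.GH.Gal.finrank_riemannRochSpace_smul g W
  rw [h2, Fermat.Agent.GJ27.RRCons.ell_canonical W hdual] at h1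
  omega

/-- **top degree**: `(q − 1) A_{2g−2} = (h − 1)(q^(g−1) − 1) + (q^g − 1)` -/
theorem card_invEffDeg_top (hD₁ : Φ.g • D₁ = D₁) (hdeg₁ : Divisor.degree D₁ = 1)
    (hg : 1 ≤ genusFF k Ft) :
    ((p : ℤ) ^ Φ.f - 1) * (Nat.card (invEffDeg Φ (2 * genusFF k Ft - 2)) : ℤ) =
      ((Nat.card (InvCl Φ) : ℤ) - 1) * (((p : ℤ) ^ Φ.f) ^ (genusFF k Ft - 1) - 1) +
        (((p : ℤ) ^ Φ.f) ^ genusFF k Ft - 1) := by
  classical
  have : Finite (InvCl Φ) := finite_invCl Φ
  have : Fintype (InvCl Φ) := Fintype.ofFinite _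
  set d := 2 * genusFF k Ft - 2 with hd
  have hdz : ((d : ℕ) : ℤ) = 2 * (genusFF k Ft : ℤ) - 2 := by omega
  rw [sub_one_mul_card_invEffDeg Φ hD₁ hdeg₁ d]
  -- an invariant canonical divisor
  have hW := Fermat.Agent.GJ27.RRCons.degree_canonical_one W hdual ell_zero_eq_one
  obtain ⟨W', hW'fix, hW'W⟩ := exists_invariant_of_smul_sub_principal Φ W
    (smul_canonical_sub_mem_principal W hdual Φ.g)
  have hW'deg : Divisor.degree W' = d := by
    have h1 := degree_eq_zero_of_mem_principal hW'W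
    rw [map_sub, hW] at h1
    rw [hdz]
    linarith
  set x₀ : InvCl Φ := clsOf Φ hD₁ hdeg₁ d W' hW'fix hW'deg with hx₀
  have hx₀W : clsRep Φ D₁ d x₀ - W ∈ Divisor.principal (K := k) (F := Ft) := by
    have h1 := (clsOf_eq_iff Φ hD₁ hdeg₁ d W' hW'fix hW'deg x₀).mp rfl
    have h2 : clsRep Φ D₁ d x₀ - W = -(W' - clsRep Φ D₁ d x₀) + (W' - W) := by abel
    rw [h2]
    exact add_mem (neg_mem h1) hW'W
  have hdegc : ∀ x : InvCl Φ,
      Divisor.degree (clsRep Φ D₁ d x) = 2 * (genusFF k Ft : ℤ) - 2 := fun x => by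
    rw [degree_clsRep Φ hdeg₁, hdz]
  have hell₀ : ell (clsRep Φ D₁ d x₀) = genusFF k Ft :=
    (Fermat.Agent.GJ27.RRCons.ell_of_top_one W hdual ell_zero_eq_one (hdegc x₀)).1 hx₀W
  have hell : ∀ x : InvCl Φ, x ≠ x₀ → ell (clsRep Φ D₁ d x) = genusFF k Ft - 1 := by
    intro x hx
    have hnot : clsRep Φ D₁ d x - W ∉ Divisor.principal (K := k) (F := Ft) := by
      intro hmem
      apply hx
      apply eq_of_clsRep_sub_mem_principal Φ d
      have h2 : clsRep Φ D₁ d x - clsRep Φ D₁ d x₀ =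
          (clsRep Φ D₁ d x - W) + -(clsRep Φ D₁ d x₀ - W) := by abel
      rw [h2]
      exact add_mem hmem (neg_mem hx₀W)
    have h1 := (Fermat.Agent.GJ27.RRCons.ell_of_top_one W hdual ell_zero_eq_one (hdegc x)).2 hnot
    omega
  rw [← Finset.add_sum_erase Finset.univ _ (Finset.mem_univ x₀), hell₀]
  rw [Finset.sum_congr rfl (fun x hx => by rw [hell x (Finset.ne_of_mem_erase hx)])]
  rw [Finset.sum_const, Finset.card_erase_of_mem (Finset.mem_univ _), Finset.card_univ,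
    nsmul_eq_mul, Nat.card_eq_fintype_card]
  have h1 : 1 ≤ Fintype.card (InvCl Φ) := Fintype.card_pos_iff.mpr ⟨x₀⟩
  rw [Nat.cast_sub h1, Nat.cast_one]
  ring

open Polynomial in
/-- **A4 in the frame**: `(1 − T)(1 − qT) ∑ A_d T^d` is a polynomial `L ∈ ℤ[T]` with `L(0) = 1`,
`L(1) = h = #Pic0^g`, `deg L = 2g`, leading coefficient `q^g`. -/
theorem exists_lPolynomial_of_frame (hD₁ : Φ.g • D₁ = D₁) (hdeg₁ : Divisor.degree D₁ = 1) :
    ∃ L : ℤ[X],
      ((1 : PowerSeries ℤ) - PowerSeries.X) *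
          (1 - PowerSeries.C ((p ^ Φ.f : ℕ) : ℤ) * PowerSeries.X) *
          PowerSeries.mk (fun d => (Nat.card (invEffDeg Φ d) : ℤ)) = (L : PowerSeries ℤ) ∧
      L.coeff 0 = 1 ∧ L.eval 1 = (Nat.card {x : Pic0 k Ft // Φ.g • x = x} : ℤ) ∧
      L.natDegree = 2 * genusFF k Ft ∧ L.leadingCoeff = ((p ^ Φ.f : ℕ) : ℤ) ^ genusFF k Ft := by
  have hq : 2 ≤ p ^ Φ.f := by
    have : 1 < p ^ Φ.f :=
      Nat.one_lt_pow (Nat.pos_iff_ne_zero.mp Φ.hf) (Fact.out : p.Prime).one_lt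
    omega
  have hcast : ((p ^ Φ.f : ℕ) : ℤ) = (p : ℤ) ^ Φ.f := by push_cast; rfl
  obtain ⟨L, h1, h2, h3, h4, h5, -⟩ := Fermat.Agent.GJ27.ZRR.exists_lPolynomial
    (q := p ^ Φ.f) (g := genusFF k Ft) (h := (Nat.card (InvCl Φ) : ℤ))
    (A := fun d => (Nat.card (invEffDeg Φ d) : ℤ)) hq
    (by show ((Nat.card (invEffDeg Φ 0) : ℕ) : ℤ) = 1; rw [card_invEffDeg_zero]; rfl)
    (fun d hd => by
      rw [hcast]; exact card_invEffDeg_stable Φ W hdual hD₁ hdeg₁ d hd)
    (fun hg => by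
      rw [hcast]; exact card_invEffDeg_top Φ W hdual hD₁ hdeg₁ hg)
  exact ⟨L, h1, h2, h3, h4, h5⟩

end Frame

end Fermat.Agent.GJ27.Desc
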