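/-
GATE-J27 (S27) / seam A1 + A3 → A4 (helper56), plug: `Desc/ClassFrame.lean` with the canonical
divisor supplied by helper90's `RRDual.exists_canonical` and `D₁ := [O]` for an invariant place `O`.

* `exists_lPolynomial_of_fixed_place` : NO binder besides the frame and `Φ.g • O = O`;
* `genusFF_eq_of_riemann'`            : the `g` of `CountStmt`'s Riemann binder is `genusFF k Ft`;
* `exists_lPolynomial_of_riemann`     : the same with `CountStmt`'s `(g, c, Riemann)` binders.
-/
import Mathlib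
import Fermat.Agent.GJ27.Desc.ClassFrame
import Fermat.Agent.GJ27.RRDual.Duality

set_option autoImplicit false

noncomputable section

open AlgebraicCurve

namespace Fermat.Agent.GJ27.Desc

open Fermat.Agent.RRh45 Fermat.Agent.RR Fermat.Agent.S24 Fermat.Agent.GJ27.Frob
  Fermat.Agent.GR.W.RedFinAbs

variable {p : ℕ} {k Ft : Type*} [Field k] [Field Ft] [Algebra k Ft]

variable [Fact p.Prime] [CharP k p] [IsAlgClosed k] [FiniteResidues k Ft]
  [HasPrincipalDivisors k Ft] [Nonempty (Place k Ft)]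

variable (Φ : FrobData p k Ft)

open Polynomial in
/-- **A4 in the frame, binder-free**: for a Frobenius with an invariant place,
`(1 − T)(1 − qT) ∑ A_d T^d = L(T)` with `L ∈ ℤ[T]`, `L(0) = 1`, `L(1) = #Pic0^g`, `deg L = 2g`,
leading coefficient `q^g`, `g = genusFF k Ft`. -/
theorem exists_lPolynomial_of_fixed_place (O : Place k Ft) (hO : Φ.g • O = O) :
    ∃ L : ℤ[X],
      ((1 : PowerSeries ℤ) - PowerSeries.X) *
          (1 - PowerSeries.C ((p ^ Φ.f : ℕ) : ℤ) * PowerSeries.X) *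
          PowerSeries.mk (fun d => (Nat.card (invEffDeg Φ d) : ℤ)) = (L : PowerSeries ℤ) ∧
      L.coeff 0 = 1 ∧ L.eval 1 = (Nat.card {x : Pic0 k Ft // Φ.g • x = x} : ℤ) ∧
      L.natDegree = 2 * genusFF k Ft ∧ L.leadingCoeff = ((p ^ Φ.f : ℕ) : ℤ) ^ genusFF k Ft := by
  obtain ⟨W, hW⟩ := Fermat.Agent.GJ27.RRDual.exists_canonical (K := k) (F := Ft) ell_zero_eq_one
  refine exists_lPolynomial_of_frame Φ W hW (D₁ := Finsupp.single O 1) ?_ ?_
  · rw [SemilinearAut.smul_single, hO]
  · rw [Divisor.degree_single, deg_eq_one O]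
    norm_num

omit [Fact p.Prime] [CharP k p] in
/-- the `g` of a Riemann binder is the prelude genus -/
theorem genusFF_eq_of_riemann' {g : ℕ} {c : ℤ}
    (hR : ∀ E : Divisor k Ft, c ≤ Divisor.degree E →
      (Module.finrank k (riemannRochSpace E) : ℤ) = Divisor.degree E + 1 - g) :
    genusFF k Ft = g := by
  have h := Fermat.Agent.GJ27.RRDual.genusFF_eq_of_riemann (K := k) (F := Ft) ell_zero_eq_one
    (g := (g : ℤ)) (c := c) hR
  exact_mod_cast h

open Polynomial in
/-- **A4 with `CountStmt`'s binders** -/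
theorem exists_lPolynomial_of_riemann (O : Place k Ft) (hO : Φ.g • O = O) {g : ℕ} {c : ℤ}
    (hR : ∀ E : Divisor k Ft, c ≤ Divisor.degree E →
      (Module.finrank k (riemannRochSpace E) : ℤ) = Divisor.degree E + 1 - g) :
    ∃ L : ℤ[X],
      ((1 : PowerSeries ℤ) - PowerSeries.X) *
          (1 - PowerSeries.C ((p ^ Φ.f : ℕ) : ℤ) * PowerSeries.X) *
          PowerSeries.mk (fun d => (Nat.card (invEffDeg Φ d) : ℤ)) = (L : PowerSeries ℤ) ∧
      L.coeff 0 = 1 ∧ L.eval 1 = (Nat.card {x : Pic0 k Ft // Φ.g • x = x} : ℤ) ∧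
      L.natDegree = 2 * g ∧ L.leadingCoeff = ((p ^ Φ.f : ℕ) : ℤ) ^ g := by
  have hg := genusFF_eq_of_riemann' (k := k) (Ft := Ft) hR
  rw [← hg]
  exact exists_lPolynomial_of_fixed_place Φ O hO

end Fermat.Agent.GJ27.Desc
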