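/-
GATE-J27 (S27) / **`CountStmt` is a theorem** (helper56 plug of the landed nodes).

`countStmt56 : CountStmt` = helper47's `Count.card_torsion_of_nodes` applied to `Φ₀ := Φ.pow n₀`
(helper3's `exists_fixed_place`: an invariant place exists after passing to a power), with
* A4 := `Desc/LPolyPlug.lPolyStmt_of_fixed_place` (A1 + A3 + helper1's `ZRR` + helper94's `Z`),
* A6 := `Norm/Final.norm_surjective_frobStr` (helper63 + helper68 + helper3).
-/
import Mathlib
import Fermat.Agent.GJ27.Desc.LPolyPlug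
import Fermat.Agent.GJ27.Norm.Final

set_option autoImplicit false

noncomputable section

open AlgebraicCurve

namespace Fermat.Agent.GJ27.Desc

open Fermat.Agent.RRh45 Fermat.Agent.S24 Fermat.Agent.GJ27.Count
  Fermat.Agent.GR.W.RedFinAbs

universe u

/-- **COUNT** (binder 3 of `GJ27/Top.lean`). -/
theorem countStmt56 : Fermat.Agent.GJ27.CountStmt.{u} := by
  intro p _ k Ft _ _ _ _ _ _ _ _ Φ x₀ _ g c hdeg hRiem ℓ _ hℓp n
  obtain ⟨n₀, hn₀, O, hO⟩ := Φ.exists_fixed_place
  exact card_torsion_of_nodes (Φ.pow n₀ hn₀) g hdeg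
    (fun m hm => lPolyStmt_of_fixed_place ((Φ.pow n₀ hn₀).pow m hm) O
      (by rw [FrobStr.pow_semiAut]; exact pow_smul_eq_of_smul_eq hO m) hRiem _)
    (fun n' m' hn' hm' x hx =>
      Fermat.Agent.GJ27.Norm.Final.norm_surjective_frobStr (Φ.pow n₀ hn₀) g c hRiem n' m' hn' hm'
        x hx) ℓ hℓp n

end Fermat.Agent.GJ27.Desc
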