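/-
GATE-J27 (S27) / A4 closing plug (helper56): **`LPolyStmt Φ g hfin` for every Frobenius structure
with an invariant place**, in helper47's contract shape (`GJ27/Count/Contract.lean`), binder-free.

= `Desc/ClassFramePlug.exists_lPolynomial_of_riemann` (A1 + A3 + helper1's `ZRR.exists_lPolynomial`)
+ the dictionary `#invEffFin Φ.perm hfin d = #{E ≥ 0 | Φ.g • E = E, deg E = d}` (helper1's
`toZ / toN / isInv_iff / degree_toZ` of `GJ27/ZRR/Frame.lean`) + helper94's `coeff_Z`.
-/
import Mathlib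
import Fermat.Agent.GJ27.Desc.ClassFramePlug
import Fermat.Agent.GJ27.ZRR.Frame
import Fermat.Agent.GJ27.Count.Contract

set_option autoImplicit false

noncomputable section

open AlgebraicCurve

namespace Fermat.Agent.GJ27.Desc

open Fermat.Agent.RRh45 Fermat.Agent.RR Fermat.Agent.S24 Fermat.Agent.GJ27.Frob
  Fermat.Agent.GR.W.RedFinAbs Fermat.Agent.GJ27.ZComb Fermat.Agent.GJ27.ZRR.Frame
  Fermat.Agent.GJ27.Count

variable {p : ℕ} {k Ft : Type*} [Field k] [Field Ft] [Algebra k Ft]

variable [Fact p.Prime] [CharP k p] [IsAlgClosed k] [FiniteResidues k Ft]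
  [HasPrincipalDivisors k Ft] [Nonempty (Place k Ft)]

omit [Fact p.Prime] [CharP k p] [HasPrincipalDivisors k Ft] [Nonempty (Place k Ft)] in
/-- **dictionary**: helper94's finset of invariant effective `ℕ`-divisors of degree `d` versus the
invariant effective divisors of degree `d` of the Prelude -/
theorem card_invEffFin_eq (Φ : FrobData p k Ft) (τ : Equiv.Perm (Place k Ft))
    (hτ : ∀ v, τ v = Φ.g • v) (hfin : ∀ j, 0 < j → (Function.fixedPoints ⇑(τ ^ j)).Finite)
    (d : ℕ) : (invEffFin τ hfin d).card = Nat.card (invEffDeg Φ d) := by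
  have hdeg : ∀ v : Place k Ft, v.deg = 1 := fun v => deg_eq_one v
  let f : (invEffFin τ hfin d) → (invEffDeg Φ d) := fun E =>
    ⟨toZ E.1, toZ_nonneg _, (isInv_iff Φ.g τ hτ E.1).mp (mem_invEffFin τ hfin |>.mp E.2).1, by
      rw [degree_toZ hdeg, (mem_invEffFin τ hfin |>.mp E.2).2]⟩
  have hinj : Function.Injective f := by
    intro E E' h
    exact Subtype.ext (toZ_injective (congrArg Subtype.val h))
  have hsurj : Function.Surjective f := by
    rintro ⟨D, hD0, hDfix, hDdeg⟩
    have hZ : toZ (toN D) = D := toZ_toN hD0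
    refine ⟨⟨toN D, (mem_invEffFin τ hfin).mpr ⟨?_, ?_⟩⟩, Subtype.ext hZ⟩
    · rw [isInv_iff Φ.g τ hτ, hZ]; exact hDfix
    · have h1 := degree_toZ hdeg (toN D)
      rw [hZ, hDdeg] at h1
      exact_mod_cast h1.symm
  rw [← Nat.card_congr (Equiv.ofBijective f ⟨hinj, hsurj⟩), Nat.card_eq_fintype_card,
    Fintype.card_coe]

/-- **`LPolyStmt` (helper47's A4 binder) for a Frobenius structure with an invariant place.** -/
theorem lPolyStmt_of_fixed_place (Φ : FrobStr p k Ft) (O : Place k Ft) (hO : Φ.semiAut • O = O)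
    {g : ℕ} {c : ℤ}
    (hR : ∀ E : Divisor k Ft, c ≤ Divisor.degree E →
      (Module.finrank k (riemannRochSpace E) : ℤ) = Divisor.degree E + 1 - g)
    (hfin : ∀ j, 0 < j → (Function.fixedPoints ⇑(Φ.perm ^ j)).Finite) :
    LPolyStmt Φ g hfin := by
  obtain ⟨L, h1, -, h3, h4, h5⟩ := exists_lPolynomial_of_riemann Φ.frobData O hO hR
  refine ⟨L, ?_, h3, h4, h5⟩
  rw [← h1]
  have hZ : ZComb.Z Φ.perm hfin =
      PowerSeries.mk (fun d => (Nat.card (invEffDeg Φ.frobData d) : ℤ)) := by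
    ext d
    rw [coeff_Z, PowerSeries.coeff_mk,
      card_invEffFin_eq Φ.frobData Φ.perm (fun _ => rfl) hfin d]
  rw [hZ]
  rfl

end Fermat.Agent.GJ27.Desc
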